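import Fermat.Agent.S56.H419.EulerSign
import Fermat.Agent.S56.H716.GWSpec2
import Fermat.Agent.S55.PT.SpecT
import Fermat.Prelude.Def_GaloisRep_ComplexConjugation

/-!
# Row S56 / wall BASE — BASE-BIG: FROZEN statements (sub-architect helper366)

Target (frozen by helper716, `H716/GWSpec2.lean`): `H716.BaseBigStatement`.

    BASE-BIG  ⇐  E-BIG + H2F + BRIDGE-BASE          (glue: `Euler/Big/Glue.lean`, PROVED)
    E-BIG     ⇐  AVL (done, helper314) + ADD (done, helper419) + BASE-C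

Vocabulary: S55 route C′ (`Fermat/Agent/S55/PT`): `L = globalLevels S` on `G_ℚ`, level-constant
cohomology `L.H1`, `L.H2`, `H0`; `tdual p N = N′`; `charHom χ N = Hom_G(N, μ_p) = H⁰(N′)`;
`Sha1`; `H419.phi L c N = h⁰ − h¹ + h² + dim N^{c=−1}`.

* `EulerBigSpec p` (E-BIG, Tate's global Euler characteristic for one big set): for every level
  `U` of `S₀ ∋ p` there is a finite `S ⊇ S₀` such that `φ_S(N) = 0` for EVERY finite-dimensional
  `N` on which `U` acts trivially.
* `BaseCSpec p` (BASE-C, the cyclic case): the same for the modules `Ind_V N`, `V ⊇ U`, `V/U`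
  cyclic of order prime to `p` (`V = C.comap (mk' U)`), `U` normal and trivial on `μ_p`.
* `H2FormulaSpec p S` (H2F): `h²(N) + h⁰(N′) = dim Ш¹(N′) + ∑_{v ∈ S} h⁰(G_v, N′)`
  (tail of Poitou–Tate = S55 by-products `TheoremDSpec`, `TopGlobSpec`, `TopLocSpec`).
* `BridgeBaseSpec` (BRIDGE-BASE): the dictionary between the plain-function language of
  `H716.Base` and the PT vocabulary for `N = ad⁰ρ̄(1)` as an `F_p`-representation
  (`d = [k : F_p]`): INV0, ODD, B1–B4 of `coord/S56-TB.md`.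

Nothing unproved in this file.  Plan: `coord/S56-EULER-helper366.md` (v2) on `origin/main`.
-/

set_option autoImplicit false

open Polynomial IsLocalRing

noncomputable section

namespace Fermat.Agent.S56.Euler

open Fermat.Agent.S56 Fermat.Agent.S55.PT ExtCitation Module

/-! ## PT vocabulary -/

section PTSide

variable (p : ℕ) [Fact p.Prime]

/-- (E-BIG) **Tate's global Euler characteristic formula, for one big set of primes.**
For every level `U` of `S₀ ∋ p` there is a finite set `S ⊇ S₀` such that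
`h⁰(N) − h¹_S(N) + h²_S(N) + dim N^{c=−1} = 0` for every finite-dimensional `F_p[G_ℚ]`-module `N`
on which `U` acts trivially (`c` = complex conjugation, `p` odd). -/
def EulerBigSpec : Prop :=
  p ≠ 2 → ∀ S₀ : Finset Nat.Primes, pPrime p ∈ S₀ → ∀ U ∈ (globalLevels S₀).levels,
    ∃ S : Finset Nat.Primes, S₀ ⊆ S ∧
      ∀ N : Rep.{0, 0, 0} (ZMod p) GQ, FiniteDimensional (ZMod p) N → (∀ u ∈ U, N.ρ u = 1) →
        H419.phi (globalLevels S) complexConjugation N = 0

/-- (BASE-C) **The cyclic case of Tate's formula, for one big set of primes.**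
`U` a normal level of `S₀ ∋ p` acting trivially on `μ_p`.  There is a finite set `S ⊇ S₀`
such that for every cyclic subgroup `C` of `G_ℚ/U` of order prime to `p`, with preimage `V` in
`G_ℚ`, and every finite-dimensional `N` on which `U` acts trivially:
`φ_S(Ind_V N) = 0`, where `Ind_V N = (G_ℚ ⧸ V →₀ N)` with the diagonal action. -/
def BaseCSpec : Prop :=
  p ≠ 2 → ∀ S₀ : Finset Nat.Primes, pPrime p ∈ S₀ →
    ∀ (U : Subgroup GQ) [U.Normal], U ∈ (globalLevels S₀).levels →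
      (∀ u ∈ U, cycloChar p u = 1) →
      ∃ S : Finset Nat.Primes, S₀ ⊆ S ∧
        ∀ C : Subgroup (GQ ⧸ U), IsCyclic C → ¬ p ∣ Nat.card C →
          ∀ N : Rep.{0, 0, 0} (ZMod p) GQ, FiniteDimensional (ZMod p) N →
            (∀ u ∈ U, N.ρ u = 1) →
            H419.phi (globalLevels S) complexConjugation
              (indRep (C.comap (QuotientGroup.mk' U)) N) = 0

variable (S : Finset Nat.Primes)

/-- (H2F) **The `H²` formula** (tail of the Poitou–Tate sequence):
`h²_S(N) + h⁰(G_ℚ, N′) = dim Ш¹_S(N′) + ∑_{v ∈ S} h⁰(G_v, N′)`, with `H⁰(N′)` in the form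
`charHom χ N = Hom_G(N, μ_p)`. -/
def H2FormulaSpec : Prop :=
  p ≠ 2 → pPrime p ∈ S →
    ∀ N : Rep.{0, 0, 0} (ZMod p) GQ, FiniteDimensional (ZMod p) N →
      (globalLevels S).IsUSmooth N →
      FiniteDimensional (ZMod p) ((globalLevels S).H2 N) ∧
      finrank (ZMod p) ((globalLevels S).H2 N) + finrank (ZMod p) ↥(charHom (cycloChar p) N) =
        finrank (ZMod p) ↥(Sha1 (hrl S) (tdual p N)) +
          ∑ v : ↥S, finrank (ZMod p) ↥(charHom (cycloLoc p v.1) (Rep.res (rl v.1) N))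

end PTSide

/-! ## The bridge to the plain-function language of `H716.Base` -/

/-- (BRIDGE-BASE) for one residual representation.  `N` is `ad⁰ρ̄(1)` as an `F_p`-representation
of `G_ℚ`, `d = [k : F_p]`, `S₀` is `Smin` as a set of primes, `U` a level of `S₀` acting trivially
on `N`, `Pl v` the place of `ℚ̄` over `v` given by the Prelude's local Galois group at `v`.
For every finite `S' ⊇ S₀`:
* `h⁰(N) = 0 = h⁰(N′)` (INV0), `dim N^{c=−1} = d` (ODD);
* `h⁰(G_v, N′) = d · dim_k adInv ρ̄ D_{Pl v}` for `v ∈ S'` (B2, B3);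
* there is a dual frame `D`, unramified outside `S'`, with `h¹_{S'}(N) ≤ d · dim_k D`
  (`D` = plain representatives of all classes: B1, B4);
* there is a finite-dimensional `X` representing all strict Selmer cocycles of `(S', ∅)` with
  `d · dim_k X ≤ dim Ш¹_{S'}(N′)` (B1–B4). -/
def BridgeBase (𝒪 : Type) [CommRing 𝒪] [IsDomain 𝒪] [IsDiscreteValuationRing 𝒪]
    (p : ℕ) [Fact p.Prime] (ρbar : ResidualGaloisRep (ResidueField 𝒪)) (Smin : Finset ℕ) :
    Prop :=
  ∃ (S₀ : Finset Nat.Primes) (U : Subgroup GQ) (N : Rep.{0, 0, 0} (ZMod p) GQ)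
    (Pl : ℕ → ValuationSubring Qb) (d : ℕ),
    pPrime p ∈ S₀ ∧ (∀ q ∈ Smin, ∃ h : q.Prime, (⟨q, h⟩ : Nat.Primes) ∈ S₀) ∧
    U ∈ (globalLevels S₀).levels ∧ FiniteDimensional (ZMod p) N ∧ (∀ u ∈ U, N.ρ u = 1) ∧
    (∀ v : ℕ, v.Prime → (Pl v).LiesOverPrime v) ∧ 0 < d ∧
    finrank (ZMod p) ↥(LevelSys.H0 N) = 0 ∧
    finrank (ZMod p) ↥(charHom (cycloChar p) N) = 0 ∧
    finrank (ZMod p) ↥(H419.minusPart complexConjugation N) = d ∧
    ∀ S' : Finset Nat.Primes, S₀ ⊆ S' →
      (∀ v : ↥S', finrank (ZMod p) ↥(charHom (cycloLoc p v.1) (Rep.res (rl v.1) N)) =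
        d * finrank (ResidueField 𝒪)
          ↥(H716.adInv ρbar ((Pl (v.1 : ℕ)).decompositionSubgroup ℚ))) ∧
      (∃ D : Submodule (ResidueField 𝒪) (GQ → Module.End (ResidueField 𝒪) ρbar.V),
        IsDualFrame ρbar p D ∧
        (∀ y ∈ D, ∀ q : ℕ, q.Prime → q ∉ S'.image (fun v : Nat.Primes => (v : ℕ)) →
          H716.UnramAt ρbar y q) ∧
        finrank (ZMod p) ((globalLevels S').H1 N) ≤ d * finrank (ResidueField 𝒪) ↥D) ∧
      (∃ X : Submodule (ResidueField 𝒪) (GQ → Module.End (ResidueField 𝒪) ρbar.V),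
        Module.Finite (ResidueField 𝒪) X ∧
        (∀ c, H716.IsSelCocycle ρbar Pl (fun _ => ⊥)
            (S'.image (fun v : Nat.Primes => (v : ℕ))) ∅ c →
          ∃ t ∈ X, H716.IsAdCoboundary ρbar (c - t)) ∧
        d * finrank (ResidueField 𝒪) ↥X ≤ finrank (ZMod p) ↥(Sha1 (hrl S') (tdual p N)))

/-- (BRIDGE-BASE). -/
def BridgeBaseSpec : Prop :=
  ∀ (𝒪 : Type) [CommRing 𝒪] [IsDomain 𝒪] [IsDiscreteValuationRing 𝒪]
    [IsAdicComplete (maximalIdeal 𝒪) 𝒪] [Finite (ResidueField 𝒪)]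
    (p : ℕ) [Fact p.Prime] (ρbar : ResidualGaloisRep (ResidueField 𝒪)) (S Smin : Finset ℕ),
    Hyp 𝒪 p ρbar S Smin → BridgeBase 𝒪 p ρbar Smin

end Fermat.Agent.S56.Euler

end
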