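import Fermat.Agent.S56.Euler.Big.Spec

/-!
# Row S56 / wall BASE — BASE-BIG: the PROVED glue (sub-architect helper366)

    theorem baseBig_of : (∀ p, EulerBigSpec p) → (∀ p S, H2FormulaSpec p S) → BridgeBaseSpec
                          → H716.BaseBigStatement

Pure arithmetic: with `N = ad⁰ρ̄(1)` over `F_p`, `d = [k : F_p]`, and `S'` the big set of (E-BIG),

  `d·dim X + ∑_v d·h⁰(D_v, M) + d ≤ dimШ¹(N′) + ∑_v h⁰(G_v, N′) + d = h²(N) + d = h¹(N) ≤ d·dim D`.
-/

set_option autoImplicit false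

open Polynomial IsLocalRing

noncomputable section

namespace Fermat.Agent.S56.Euler

open Fermat.Agent.S56 Fermat.Agent.S55.PT ExtCitation Module

/-- A level of `S₀` is a level of every bigger set. -/
lemma mem_levels_of_subset {S₀ S : Finset Nat.Primes} (h : S₀ ⊆ S) {U : Subgroup GQ}
    (hU : U ∈ (globalLevels S₀).levels) : U ∈ (globalLevels S).levels := by
  obtain ⟨F, hF, rfl⟩ := hU
  exact ⟨F, hF.mono h, rfl⟩

/-- **BASE-BIG from E-BIG, H2F and BRIDGE-BASE.** -/
theorem baseBig_of (hE : ∀ (p : ℕ) [Fact p.Prime], EulerBigSpec p)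
    (hH2 : ∀ (p : ℕ) [Fact p.Prime] (S : Finset Nat.Primes), H2FormulaSpec p S)
    (hB : BridgeBaseSpec) : H716.BaseBigStatement := by
  intro 𝒪 _ _ _ _ _ p ρbar S Smin hyp
  have : Fact p.Prime := ⟨hyp.hp⟩
  obtain ⟨S₀, U, N, Pl, d, hpS₀, hSmin, hU, hfd, hUN, hPl, hd, h0, hch, hminus, hS'⟩ :=
    hB 𝒪 p ρbar S Smin hyp
  obtain ⟨S', hS₀S', hphi⟩ := hE p hyp.hp2 S₀ hpS₀ U hU
  have hphiN := hphi N hfd hUN
  obtain ⟨hchv, ⟨D, hD, hDunr, hDle⟩, ⟨X, hXfin, hXrep, hXle⟩⟩ := hS' S' hS₀S'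
  have hUS' : U ∈ (globalLevels S').levels := mem_levels_of_subset hS₀S' hU
  have hsm : (globalLevels S').IsUSmooth N :=
    ⟨U, hUS', fun s hs a => by rw [hUN s hs]; rfl⟩
  obtain ⟨-, hh2⟩ := hH2 p S' hyp.hp2 (hS₀S' hpS₀) N hfd hsm
  -- the set of primes as a `Finset ℕ`
  refine ⟨S'.image (fun v : Nat.Primes => (v : ℕ)), ?_, ?_, Pl, ?_, D, X, hD, hDunr, hXfin,
    hXrep, ?_⟩
  · intro q hq
    obtain ⟨h, hq'⟩ := hSmin q hq
    exact Finset.mem_image.2 ⟨⟨q, h⟩, hS₀S' hq', rfl⟩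
  · intro q hq
    obtain ⟨v, -, rfl⟩ := Finset.mem_image.1 hq
    exact v.2
  · intro v hv
    obtain ⟨w, -, rfl⟩ := Finset.mem_image.1 hv
    exact hPl _ w.2
  · -- the numerical inequality
    have hsum : ∑ v ∈ S'.image (fun v : Nat.Primes => (v : ℕ)),
        finrank (ResidueField 𝒪) ↥(H716.adInv ρbar ((Pl v).decompositionSubgroup ℚ)) =
        ∑ v : ↥S', finrank (ResidueField 𝒪)
          ↥(H716.adInv ρbar ((Pl (v.1 : ℕ)).decompositionSubgroup ℚ)) := by
      have hinj : ∀ a ∈ S', ∀ b ∈ S', (fun v : Nat.Primes => (v : ℕ)) a =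
          (fun v : Nat.Primes => (v : ℕ)) b → a = b := fun a _ b _ h => Subtype.ext h
      rw [Finset.sum_image hinj]
      exact (Finset.sum_coe_sort S' (fun v : Nat.Primes => finrank (ResidueField 𝒪)
        ↥(H716.adInv ρbar ((Pl (v : ℕ)).decompositionSubgroup ℚ)))).symm
    rw [hsum]
    have hsumd : ∑ v : ↥S', finrank (ZMod p)
        ↥(charHom (cycloLoc p v.1) (Rep.res (rl v.1) N)) =
        d * ∑ v : ↥S', finrank (ResidueField 𝒪)
          ↥(H716.adInv ρbar ((Pl (v.1 : ℕ)).decompositionSubgroup ℚ)) := by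
      rw [Finset.mul_sum]
      exact Finset.sum_congr rfl fun v _ => hchv v
    rw [hsumd, hch, add_zero] at hh2
    unfold H419.phi H419.eulerChar at hphiN
    rw [h0, hminus] at hphiN
    have h1 : (finrank (ZMod p) ((globalLevels S').H1 N) : ℤ) =
        finrank (ZMod p) ((globalLevels S').H2 N) + d := by
      push_cast at hphiN ⊢
      linarith
    have h1' : finrank (ZMod p) ((globalLevels S').H1 N) =
        finrank (ZMod p) ((globalLevels S').H2 N) + d := by exact_mod_cast h1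
    have key : d * (finrank (ResidueField 𝒪) ↥X +
        ∑ v : ↥S', finrank (ResidueField 𝒪)
          ↥(H716.adInv ρbar ((Pl (v.1 : ℕ)).decompositionSubgroup ℚ)) + 1) ≤
        d * finrank (ResidueField 𝒪) ↥D := by
      calc d * (finrank (ResidueField 𝒪) ↥X +
            ∑ v : ↥S', finrank (ResidueField 𝒪)
              ↥(H716.adInv ρbar ((Pl (v.1 : ℕ)).decompositionSubgroup ℚ)) + 1)
          = d * finrank (ResidueField 𝒪) ↥X +
            d * ∑ v : ↥S', finrank (ResidueField 𝒪)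
              ↥(H716.adInv ρbar ((Pl (v.1 : ℕ)).decompositionSubgroup ℚ)) + d := by ring
        _ ≤ finrank (ZMod p) ↥(Sha1 (hrl S') (tdual p N)) +
            d * ∑ v : ↥S', finrank (ResidueField 𝒪)
              ↥(H716.adInv ρbar ((Pl (v.1 : ℕ)).decompositionSubgroup ℚ)) + d := by
            gcongr
        _ = finrank (ZMod p) ((globalLevels S').H1 N) := by rw [h1', hh2]
        _ ≤ d * finrank (ResidueField 𝒪) ↥D := hDle
    exact Nat.le_of_mul_le_mul_left key hd

end Fermat.Agent.S56.Euler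

end
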