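import Fermat.Agent.S56.Euler.Big.H2CPSpec
import Fermat.Agent.S55.PT.Final2
import Fermat.Agent.S56.H614.Lattice

/-!
# Row S56 / BASE-BIG — leaf H2-CP (helper765): the equivariant `H²` formula

`h2cp_of : TopLoc → TopGlob → H2CPSpec p S` and
`h2cp_of_four : Surj2Glob → Surj2Loc → Inv → Cap → H2CPSpec p S`.

The tail `0 → H²(N) → ∏_v H²(G_v, N) → T³(N) → 0` of the Poitou–Tate sequence is exact when
`Ш²(N) = 0`, and it commutes with `T_*`.  The top pairings `topPair` (local) and `topT3` (global)
are bijective and natural (`topPair_pushH2`, `topT3_pushT3`), so `T_*` on `H²(G_v, N)`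
(resp. `T³(N)`) is the transpose of `f ↦ f ∘ T` on `charHom_v N = H⁰(G_v, N′)`
(resp. `charHom N = H⁰(N′)`).  A map and its transpose have the same characteristic polynomial,
and the characteristic polynomial is multiplicative in exact sequences and in finite products.
-/

set_option autoImplicit false

noncomputable section

namespace Fermat.Agent.S56.Euler.H765

open Polynomial Module

/-! ### Mathlib-only linear algebra -/

section LinAlg

variable {K : Type*} [Field K]

/-- The characteristic polynomial of the transpose. -/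
theorem charpoly_dualMap765 {V : Type*} [AddCommGroup V] [Module K V] [FiniteDimensional K V]
    (f : V →ₗ[K] V) : f.dualMap.charpoly = f.charpoly := by
  classical
  let b := Module.finBasis K V
  have h : LinearMap.toMatrix b.dualBasis b.dualBasis f.dualMap =
      (LinearMap.toMatrix b b f).transpose :=
    LinearMap.toMatrix_transpose (B₁ := b) (B₂ := b) f
  rw [← LinearMap.charpoly_toMatrix f b, ← LinearMap.charpoly_toMatrix f.dualMap b.dualBasis, h,
    Matrix.charpoly_transpose]

/-- Transport of characteristic polynomials along a perfect "pairing" `θ : X ≃ Dual C`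
with `θ (fX x) c = θ x (fC c)`. -/
theorem charpoly_eq_of_bijective_dual765 {X C : Type*} [AddCommGroup X] [Module K X]
    [AddCommGroup C] [Module K C] [FiniteDimensional K C] [Module.Finite K X]
    (θ : X →ₗ[K] Module.Dual K C) (hθ : Function.Bijective θ)
    (fX : X →ₗ[K] X) (fC : C →ₗ[K] C) (h : ∀ x c, θ (fX x) c = θ x (fC c)) :
    fX.charpoly = fC.charpoly := by
  let e : X ≃ₗ[K] Module.Dual K C := LinearEquiv.ofBijective θ hθ
  have hconj : e.conj fX = fC.dualMap := by
    apply LinearMap.ext
    intro y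
    obtain ⟨x, rfl⟩ := e.surjective y
    rw [LinearEquiv.conj_apply_apply, LinearEquiv.symm_apply_apply]
    apply LinearMap.ext
    intro c
    exact h x c
  rw [← LinearEquiv.charpoly_conj e fX, hconj, charpoly_dualMap765]

/-- Transport of characteristic polynomials along a linear equivalence. -/
theorem charpoly_eq_of_equiv765 {V W : Type*} [AddCommGroup V] [Module K V]
    [AddCommGroup W] [Module K W] [Module.Finite K V] [Module.Finite K W]
    (e : V ≃ₗ[K] W) (f : V →ₗ[K] V) (g : W →ₗ[K] W) (h : ∀ x, e (f x) = g (e x)) :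
    f.charpoly = g.charpoly := by
  have hconj : e.conj f = g := by
    apply LinearMap.ext
    intro y
    obtain ⟨x, rfl⟩ := e.surjective y
    rw [LinearEquiv.conj_apply_apply, LinearEquiv.symm_apply_apply]
    exact h x
  rw [← LinearEquiv.charpoly_conj e f, hconj]

end LinAlg


section Pi

variable {K : Type*} [Field K]

/-- The characteristic polynomial of a product map is the product of the characteristic
polynomials (dependent, finite index type). -/
theorem charpoly_pi765_aux : ∀ (n : ℕ) {ι : Type} [Fintype ι] [DecidableEq ι]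
    (M : ι → Type) [∀ v, AddCommGroup (M v)] [∀ v, Module K (M v)]
    [∀ v, Module.Finite K (M v)] (f : ∀ v, M v →ₗ[K] M v), Fintype.card ι = n →
    (LinearMap.pi fun v => f v ∘ₗ LinearMap.proj v : (∀ v, M v) →ₗ[K] (∀ v, M v)).charpoly =
      ∏ v, (f v).charpoly := by
  intro n
  induction n with
  | zero =>
    intro ι _ _ M _ _ _ f hcard
    have : IsEmpty ι := Fintype.card_eq_zero_iff.1 hcard
    have h0 : (LinearMap.pi fun v => f v ∘ₗ LinearMap.proj v : (∀ v, M v) →ₗ[K] (∀ v, M v)) = 0 :=
      Subsingleton.elim _ _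
    rw [h0, LinearMap.charpoly_zero, Module.finrank_zero_of_subsingleton, pow_zero,
      Finset.univ_eq_empty, Finset.prod_empty]
  | succ n ih =>
    intro ι _ _ M _ _ _ f hcard
    have hne : Nonempty ι := Fintype.card_pos_iff.1 (by omega)
    obtain ⟨v₀⟩ := hne
    let ι' := {v : ι // v ≠ v₀}
    have hcard' : Fintype.card ι' = n := by
      have := Fintype.card_subtype_compl (fun v : ι => v = v₀)
      simp only [Fintype.card_subtype_eq] at this
      show Fintype.card {v : ι // ¬ v = v₀} = n
      omega
    let i : M v₀ →ₗ[K] (∀ v, M v) := LinearMap.single K M v₀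
    let g : (∀ v, M v) →ₗ[K] (∀ v : ι', M v.1) := LinearMap.pi fun v => LinearMap.proj v.1
    have hi : Function.Injective i := Pi.single_injective v₀
    have hg : Function.Surjective g := by
      intro y
      refine ⟨fun v => if h : v = v₀ then 0 else y ⟨v, h⟩, ?_⟩
      funext v
      show (if h : (v : ι) = v₀ then (0 : M v.1) else y ⟨v.1, h⟩) = y v
      rw [dif_neg v.2]
    have hex : LinearMap.range i = LinearMap.ker g := by
      ext x
      constructor
      · rintro ⟨y, rfl⟩
        rw [LinearMap.mem_ker]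
        funext v
        show (Pi.single v₀ y : ∀ v, M v) v.1 = 0
        exact Pi.single_eq_of_ne v.2 y
      · intro hx
        rw [LinearMap.mem_ker] at hx
        refine ⟨x v₀, ?_⟩
        funext v
        show (Pi.single v₀ (x v₀) : ∀ v, M v) v = x v
        by_cases h : v = v₀
        · subst h
          rw [Pi.single_eq_same]
        · rw [Pi.single_eq_of_ne h]
          exact (congrFun hx ⟨v, h⟩).symm
    have h1 : i ∘ₗ f v₀ =
        (LinearMap.pi fun v => f v ∘ₗ LinearMap.proj v : (∀ v, M v) →ₗ[K] (∀ v, M v)) ∘ₗ i := by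
      apply LinearMap.ext
      intro y
      funext v
      show (Pi.single v₀ (f v₀ y) : ∀ v, M v) v = f v ((Pi.single v₀ y : ∀ v, M v) v)
      by_cases h : v = v₀
      · subst h
        rw [Pi.single_eq_same, Pi.single_eq_same]
      · rw [Pi.single_eq_of_ne h, Pi.single_eq_of_ne h, map_zero]
    have h2 : g ∘ₗ
        (LinearMap.pi fun v => f v ∘ₗ LinearMap.proj v : (∀ v, M v) →ₗ[K] (∀ v, M v)) =
        (LinearMap.pi fun v : ι' => f v.1 ∘ₗ LinearMap.proj v :
          (∀ v : ι', M v.1) →ₗ[K] (∀ v : ι', M v.1)) ∘ₗ g := rfl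
    rw [Fermat.Agent.S56.H614.charpoly_of_exact i hi g hg hex (f v₀) _ _ h1 h2,
      ih (fun v : ι' => M v.1) (fun v : ι' => f v.1) hcard',
      Fintype.prod_eq_mul_prod_subtype_ne (fun v => (f v).charpoly) v₀]

theorem charpoly_pi765 {ι : Type} [Fintype ι] [DecidableEq ι]
    (M : ι → Type) [∀ v, AddCommGroup (M v)] [∀ v, Module K (M v)]
    [∀ v, Module.Finite K (M v)] (f : ∀ v, M v →ₗ[K] M v) :
    (LinearMap.pi fun v => f v ∘ₗ LinearMap.proj v : (∀ v, M v) →ₗ[K] (∀ v, M v)).charpoly =
      ∏ v, (f v).charpoly :=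
  charpoly_pi765_aux _ M f rfl

end Pi


/-! ### the equivariant `H²` formula -/

section Main

open Fermat.Agent.S56 Fermat.Agent.S55.PT ExtCitation groupCohomology

variable (p : ℕ) [Fact p.Prime] (S : Finset Nat.Primes)

/-- **Leaf H2-CP.**  The equivariant `H²` formula from the two top-degree dualities. -/
theorem h2cp_of (inv : InvFamily p S) (hrec : IsRecip (hrl S) (cycloChar p) inv)
    (hTL : TopLocSpec inv) (hTG : TopGlobSpec inv hrec) : H2CPSpec p S := by
  classical
  intro _hp2 _hpS N T hT hNsm hSha hNfd hH2fd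
  -- the local top pairings
  have hlocB : ∀ v : ↥S, Function.Bijective
      (topPair (localLevels v.1) (cycloLoc p v.1) (inv v) (Rep.res (rl v.1) N)) :=
    fun v => hTL v (Rep.res (rl v.1) N) hNfd (hNsm.res (hrl S v))
  have hlocfd : ∀ v : ↥S,
      Module.Finite (ZMod p) ((localLevels v.1).H2 (Rep.res (rl v.1) N)) := fun v =>
    Module.Finite.equiv (LinearEquiv.ofBijective _ (hlocB v)).symm
  have hT3fd : Module.Finite (ZMod p) (T3 (hrl S) N) :=
    Module.Finite.of_surjective (T3π (hrl S) N) (T3π_surjective (hrl S) N)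
  -- the exact sequence `0 → H² → ∏ H²_v → T³ → 0`
  have hinj : Function.Injective (loc2 (hrl S) N) := by
    rw [← LinearMap.ker_eq_bot]
    exact hSha
  have h1 : loc2 (hrl S) N ∘ₗ pushH2 T hT (globalLevels S) =
      pushLoc2 (Lv := fun v : ↥S => localLevels v.1) (r := fun v : ↥S => rl v.1) T hT ∘ₗ
        loc2 (hrl S) N := by
    apply LinearMap.ext
    intro x
    exact loc2_pushH2 (hrl S) T hT x
  have h2 : T3π (hrl S) N ∘ₗ
      pushLoc2 (Lv := fun v : ↥S => localLevels v.1) (r := fun v : ↥S => rl v.1) T hT =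
      pushT3 (hrl S) T hT ∘ₗ T3π (hrl S) N := rfl
  have hY := Fermat.Agent.S56.H614.charpoly_of_exact (loc2 (hrl S) N) hinj (T3π (hrl S) N)
    (T3π_surjective (hrl S) N) (ker_T3π (hrl S) N).symm (pushH2 T hT (globalLevels S))
    (pushLoc2 (Lv := fun v : ↥S => localLevels v.1) (r := fun v : ↥S => rl v.1) T hT)
    (pushT3 (hrl S) T hT) h1 h2
  -- the product
  have hpi : (pushLoc2 (Lv := fun v : ↥S => localLevels v.1) (r := fun v : ↥S => rl v.1)
      T hT).charpoly =
      ∏ v : ↥S, (pushH2 (A := Rep.res (rl v.1) N) (B := Rep.res (rl v.1) N) T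
        (hT.res (rl v.1)) (localLevels v.1)).charpoly :=
    charpoly_pi765 (fun v : ↥S => (localLevels v.1).H2 (Rep.res (rl v.1) N))
      (fun v : ↥S => pushH2 (A := Rep.res (rl v.1) N) (B := Rep.res (rl v.1) N) T
        (hT.res (rl v.1)) (localLevels v.1))
  -- local duality
  have hloc : ∀ v : ↥S,
      (pushH2 (A := Rep.res (rl v.1) N) (B := Rep.res (rl v.1) N) T
        (hT.res (rl v.1)) (localLevels v.1)).charpoly =
      (pushH0 (A := Rep.res (rl v.1) (tdual p N)) (B := Rep.res (rl v.1) (tdual p N))
        T.dualMap ((dualMap_equivariant (cycloChar p) T hT).res (rl v.1))).charpoly := by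
    intro v
    rw [charpoly_eq_of_bijective_dual765
      (topPair (localLevels v.1) (cycloLoc p v.1) (inv v) (Rep.res (rl v.1) N)) (hlocB v)
      (pushH2 (A := Rep.res (rl v.1) N) (B := Rep.res (rl v.1) N) T
        (hT.res (rl v.1)) (localLevels v.1))
      (charHomComap (cycloLoc p v.1) (A := Rep.res (rl v.1) N) (B := Rep.res (rl v.1) N) T
        (hT.res (rl v.1)))
      (fun x c => topPair_pushH2 (cycloLoc p v.1) (A := Rep.res (rl v.1) N)
        (B := Rep.res (rl v.1) N) T (hT.res (rl v.1)) (localLevels v.1) (inv v) c x)]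
    exact charpoly_eq_of_equiv765 (eH0res (cycloChar p) N (rl v.1)) _ _
      (fun f => Subtype.ext rfl)
  -- global duality
  have hglob : (pushT3 (hrl S) T hT).charpoly =
      (pushH0 (A := tdual p N) (B := tdual p N) T.dualMap
        (dualMap_equivariant (cycloChar p) T hT)).charpoly := by
    rw [charpoly_eq_of_bijective_dual765 (topT3 (hrl S) N hrec) (hTG N hNfd hNsm)
      (pushT3 (hrl S) T hT) (charHomComap (cycloChar p) (A := N) (B := N) T hT)
      (fun t f => topT3_pushT3 (hrl S) T hT (cycloChar p) inv hrec f t)]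
    exact charpoly_eq_of_equiv765 (eH0 (cycloChar p) N) _ _ (fun f => Subtype.ext rfl)
  have hprod := Finset.prod_coe_sort S (fun q : Nat.Primes =>
    (pushH0 (A := Rep.res (rl q) (tdual p N)) (B := Rep.res (rl q) (tdual p N))
      T.dualMap ((dualMap_equivariant (cycloChar p) T hT).res (rl q))).charpoly)
  rw [← hglob, ← hY, hpi, ← hprod]
  exact Finset.prod_congr rfl fun v _ => hloc v

/-- **Leaf H2-CP, from the four arithmetic inputs** A3, A4, A5–A7, A8 of S55. -/
theorem h2cp_of_four (hSurjG : Surj2GlobSpec p S) (hSurjL : Surj2LocSpec p S)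
    (hInv : InvSpec p S) (_hCap : CapSpec p S) : H2CPSpec p S := by
  intro hp2 hpS
  obtain ⟨inv, hrec, hTLI, hTGI⟩ := hInv
  have hrec' : IsRecip (hrl S) (cycloChar p) inv := hrec
  have hTopL : TopLocSpec inv :=
    H299.topLocDev p S H113.lesMidSpec H724.localNormalCofinal H724.localFiniteIndex inv hTLI
      hSurjL
  have hTopG : TopGlobSpec inv hrec' :=
    H123.topGlobDev p S H113.lesMidSpec H724.globalNormalCofinal H724.localNormalCofinal
      H724.globalFiniteIndex hpS inv hrec' hTopL hTGI hSurjG hSurjL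
  exact h2cp_of p S inv hrec' hTopL hTopG hp2 hpS

end Main

end Fermat.Agent.S56.Euler.H765

end
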