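import Fermat.Agent.S56.Euler.Big.Spec
import Fermat.Agent.S55.PT.Final2

/-!
# Row S56 / BASE-BIG — leaf H2F (helper29): the `H²` formula

`h2Formula_of : FinGlob → TheoremD → TopLoc → TopGlob → H2FormulaSpec p S` and
`h2Formula_of_four : Surj2Glob → Surj2Loc → Inv → Cap → H2FormulaSpec p S`.

Pure rank–nullity on the tail of the Poitou–Tate sequence
`0 → Ш²(N) → H²(N) → ∏_v H²(G_v, N) → T³(N) → 0` with
`Ш²(N) ≃ Dual Ш¹(N′)` (Theorem D), `H²(G_v, N) ≃ Dual (charHom_v N)` (TOP-loc),
`T³(N) ≃ Dual (charHom N)` (TOP-glob).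
-/

set_option autoImplicit false

noncomputable section

namespace Fermat.Agent.S56.Euler.H29

open Fermat.Agent.S56 Fermat.Agent.S55.PT ExtCitation Module

/-! ### Mathlib-only linear algebra -/

section LinAlg

variable {K : Type*} [Field K]

/-- A bijective linear map onto the dual of a finite-dimensional space: the source is
finite-dimensional of the same dimension. -/
theorem finite_and_finrank_of_bijective_dual {V W : Type*} [AddCommGroup V] [Module K V]
    [AddCommGroup W] [Module K W] [FiniteDimensional K W]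
    (f : V →ₗ[K] Module.Dual K W) (hf : Function.Bijective f) :
    FiniteDimensional K V ∧ finrank K V = finrank K W := by
  let e : V ≃ₗ[K] Module.Dual K W := LinearEquiv.ofBijective f hf
  refine ⟨Module.Finite.equiv e.symm, ?_⟩
  rw [e.finrank_eq, Subspace.dual_finrank_eq]

/-- A linear equivalence with the dual of a finite-dimensional space. -/
theorem finite_and_finrank_of_equiv_dual {V W : Type*} [AddCommGroup V] [Module K V]
    [AddCommGroup W] [Module K W] [FiniteDimensional K W]
    (e : V ≃ₗ[K] Module.Dual K W) :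
    FiniteDimensional K V ∧ finrank K V = finrank K W := by
  refine ⟨Module.Finite.equiv e.symm, ?_⟩
  rw [e.finrank_eq, Subspace.dual_finrank_eq]

/-- Rank–nullity without assuming the source finite-dimensional: kernel and target are. -/
theorem finite_and_finrank_of_ker_of_target {V W : Type*} [AddCommGroup V] [Module K V]
    [AddCommGroup W] [Module K W] [FiniteDimensional K W]
    (f : V →ₗ[K] W) [hk : FiniteDimensional K (LinearMap.ker f)] :
    FiniteDimensional K V ∧
      finrank K V = finrank K (LinearMap.ker f) + finrank K (LinearMap.range f) := by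
  have hq : Module.Finite K (V ⧸ LinearMap.ker f) :=
    Module.Finite.equiv (LinearMap.quotKerEquivRange f).symm
  have hV : FiniteDimensional K V := Module.Finite.of_submodule_quotient (LinearMap.ker f)
  refine ⟨hV, ?_⟩
  have := LinearMap.finrank_range_add_finrank_ker f
  omega

/-- Dimension of the cokernel, in the form "surjection with prescribed kernel". -/
theorem finrank_add_of_surjective_of_ker {V T : Type*} [AddCommGroup V] [Module K V]
    [AddCommGroup T] [Module K T] [FiniteDimensional K V]
    (π : V →ₗ[K] T) (hπ : Function.Surjective π) (R : Submodule K V)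
    (hker : LinearMap.ker π = R) :
    finrank K R + finrank K T = finrank K V := by
  subst hker
  have h1 := LinearMap.finrank_range_add_finrank_ker π
  rw [LinearMap.range_eq_top.2 hπ, finrank_top] at h1
  omega

end LinAlg

/-! ### the `H²` formula -/

variable (p : ℕ) [Fact p.Prime] (S : Finset Nat.Primes)

/-- **Leaf H2F.**  The `H²` formula from Theorem D and the two top-degree dualities. -/
theorem h2Formula_of (hFin : FinGlobSpec p S) (hD : TheoremDSpec p S) (inv : InvFamily p S)
    (hrec : IsRecip (hrl S) (cycloChar p) inv) (hTL : TopLocSpec inv)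
    (hTG : TopGlobSpec inv hrec) : H2FormulaSpec p S := by
  classical
  intro _hp2 hpS N hNfd hNsm
  have := hNfd
  -- smoothness of the Tate dual
  obtain ⟨V₁, hV₁, hV₁N⟩ := hNsm
  obtain ⟨V₂, hV₂, hV₂χ⟩ := cycloLevelSpec p S hpS
  obtain ⟨V, hV, hVle⟩ := (globalLevels S).directed V₁ hV₁ V₂ hV₂
  have hχV : ∀ u ∈ V, cycloChar p u = 1 := fun u hu => hV₂χ u (hVle hu).2
  have hNV : ∀ u ∈ V, N.ρ u = 1 := fun u hu =>
    LinearMap.ext fun a => hV₁N u (hVle hu).1 a
  have hN'triv : ∀ u ∈ V, (tdual p N).ρ u = 1 := fun u hu =>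
    dualTwist_ρ_eq_one' (cycloChar p) N u (hχV u hu) (hNV u hu)
  have hN'sm : (globalLevels S).IsUSmooth (tdual p N) := isUSmooth_of_trivial _ hV hN'triv
  have hNsm' : (globalLevels S).IsUSmooth N := ⟨V₁, hV₁, hV₁N⟩
  -- `Ш¹(N′)` is finite-dimensional
  have hH1 : FiniteDimensional (ZMod p) ((globalLevels S).H1 (tdual p N)) :=
    hFin (tdual p N) inferInstance hN'sm
  have hSha1 : FiniteDimensional (ZMod p) ↥(Sha1 (hrl S) (tdual p N)) :=
    FiniteDimensional.finiteDimensional_submodule _
  -- Theorem D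
  obtain ⟨eD⟩ := hD N hNfd hNsm'
  obtain ⟨hSha2fd, hSha2⟩ := finite_and_finrank_of_equiv_dual eD
  -- local top dualities
  have hloc : ∀ v : ↥S,
      FiniteDimensional (ZMod p) ((localLevels v.1).H2 (Rep.res (rl v.1) N)) ∧
      finrank (ZMod p) ((localLevels v.1).H2 (Rep.res (rl v.1) N)) =
        finrank (ZMod p) ↥(charHom (cycloLoc p v.1) (Rep.res (rl v.1) N)) := fun v =>
    finite_and_finrank_of_bijective_dual _
      (hTL v (Rep.res (rl v.1) N) inferInstance (hNsm'.res (hrl S v)))
  have hlocfd : ∀ v : ↥S,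
      FiniteDimensional (ZMod p) ((localLevels v.1).H2 (Rep.res (rl v.1) N)) :=
    fun v => (hloc v).1
  have hprod : finrank (ZMod p) ((v : ↥S) → (localLevels v.1).H2 (Rep.res (rl v.1) N)) =
      ∑ v : ↥S, finrank (ZMod p) ↥(charHom (cycloLoc p v.1) (Rep.res (rl v.1) N)) := by
    rw [Module.finrank_pi_fintype]
    exact Finset.sum_congr rfl fun v _ => (hloc v).2
  -- global top duality
  have hTGN : Function.Bijective (topT3 (hrl S) N hrec) := hTG N hNfd hNsm'
  obtain ⟨_, hT3⟩ := @finite_and_finrank_of_bijective_dual (ZMod p) _ (T3 (hrl S) N)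
    ↥(charHom (cycloChar p) N) _ _ _ _ _ (topT3 (hrl S) N hrec) hTGN
  -- rank–nullity for `loc2`
  have : FiniteDimensional (ZMod p) ↥(LinearMap.ker (loc2 (hrl S) N)) := hSha2fd
  obtain ⟨hH2fd, hH2⟩ := finite_and_finrank_of_ker_of_target (loc2 (hrl S) N)
  have hcok := finrank_add_of_surjective_of_ker (T3π (hrl S) N) (T3π_surjective (hrl S) N)
    (LinearMap.range (loc2 (hrl S) N)) (ker_T3π (hrl S) N)
  refine ⟨hH2fd, ?_⟩
  have hSha2' : finrank (ZMod p) ↥(LinearMap.ker (loc2 (hrl S) N)) =
      finrank (ZMod p) ↥(Sha1 (hrl S) (tdual p N)) := hSha2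
  rw [← hprod, ← hcok, hH2, hSha2', ← hT3]
  omega

/-- **Leaf H2F, from the four arithmetic inputs** A3, A4, A5–A7, A8 of S55. -/
theorem h2Formula_of_four (hSurjG : Surj2GlobSpec p S) (hSurjL : Surj2LocSpec p S)
    (hInv : InvSpec p S) (hCap : CapSpec p S) : H2FormulaSpec p S := by
  intro hp2 hpS
  have hD : TheoremDSpec p S := theoremD_of_four p S hpS hSurjG hSurjL hInv hCap
  obtain ⟨inv, hrec, hTLI, hTGI⟩ := hInv
  have hrec' : IsRecip (hrl S) (cycloChar p) inv := hrec
  have hTopL : TopLocSpec inv :=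
    H299.topLocDev p S H113.lesMidSpec H724.localNormalCofinal H724.localFiniteIndex inv hTLI
      hSurjL
  have hTopG : TopGlobSpec inv hrec' :=
    H123.topGlobDev p S H113.lesMidSpec H724.globalNormalCofinal H724.localNormalCofinal
      H724.globalFiniteIndex hpS inv hrec' hTopL hTGI hSurjG hSurjL
  exact h2Formula_of p S (H593.finGlob p S) hD inv hrec' hTopL hTopG hp2 hpS

end Fermat.Agent.S56.Euler.H29

end
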