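import Fermat.Agent.S56.H419.CharEulerLeaves
import Fermat.Agent.S56.Euler.Big.Glue
import Fermat.Agent.S56.Euler.Big.H2FH29
import Fermat.Agent.S56.Euler.Big.H2CPH765
import Fermat.Agent.S56.H614.Red
import Fermat.Agent.S56.H314.LemmaA
import Fermat.Agent.S56.Br.H374.BridgeBase
import Fermat.Agent.S56.H419.EulerSign

/-!
# Row S56 / wall BASE — BASE-BIG: the FINAL ASSEMBLY (sub-architect helper366)

    theorem baseBig_of_p1 :
        (∀ p S, p ≠ 2 → pPrime p ∈ S →
            Surj2GlobSpec p S ∧ Surj2LocSpec p S ∧ InvSpec p S ∧ CapSpec p S) →   -- S55, route C′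
        (∀ p, H419.P1CharSpec p) →                                                -- P1-CHAR
        H716.BaseBigStatement

    theorem baseBig_of_inputs : (the same S55 inputs) → (∀ p, CEH1Spec p) → H716.BaseBigStatement

(`CEH1Spec p → H419.P1CharSpec p` is `p1Char_of_ceH1`: `P1CharSpec` is `CEH1Spec` with the extra
hypothesis that `σ` has order prime to `p` modulo `U`.)

Everything else of BASE-BIG is on main and is plugged in here:

* BRIDGE-BASE `Br.bridgeBase` (helper374), H2F `H29.h2Formula_of_four` (helper29),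
* RED `H614.red_of H314.lemmaA` (helper614, helper314), ADD `H419.phiAdd_of` (helper419),
* CHAR-EULER-BIG `H419.charEulerBig_of` (helper419; same as `charEulerBig_of` of `AsmGlue.lean`)
  from
  - SHA `H726.exists_sha2_indMu_eq_bot` (helper726) + Theorem D `PT.theoremD_of_four`,
  - CL `H419.clSpec'` (helper74's `H74.exists_noPTorsH1E`),
  - H2-CP `H765.h2cp_of_four` (helper765),
  - P1-CHAR = the hypothesis (KUM `H184.kumEq` + HERB `H419.herb_H0`).
-/

set_option autoImplicit false

open Polynomial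

noncomputable section

namespace Fermat.Agent.S56.Euler

open Fermat.Agent.S56 Fermat.Agent.S55.PT ExtCitation Module groupCohomology

/-- `CEH1Spec` is `H419.P1CharSpec` without the `p`-regularity hypothesis on `σ`. -/
theorem p1Char_of_ceH1 {p : ℕ} [Fact p.Prime] (h : CEH1Spec p) : H419.P1CharSpec p :=
  fun hp2 S hpS F _ _ _ hF hχ hcl σ _ hfin => h hp2 S hpS F hF hχ hcl σ hfin

/-- **BASE-BIG from the S55 inputs (route C′) and P1-CHAR.** -/
theorem baseBig_of_p1
    (h4 : ∀ (p : ℕ) [Fact p.Prime] (S : Finset Nat.Primes), p ≠ 2 → pPrime p ∈ S →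
      Surj2GlobSpec p S ∧ Surj2LocSpec p S ∧ InvSpec p S ∧ CapSpec p S)
    (hP1 : ∀ (p : ℕ) [Fact p.Prime], H419.P1CharSpec p) : H716.BaseBigStatement := by
  have hH2 : ∀ (p : ℕ) [Fact p.Prime] (S : Finset Nat.Primes), H2FormulaSpec p S := by
    intro p _ S hp2 hpS
    obtain ⟨a, b, c, d⟩ := h4 p S hp2 hpS
    exact H29.h2Formula_of_four p S a b c d hp2 hpS
  refine baseBig_of (fun p _ => ?_) hH2 Fermat.Agent.S56.Br.bridgeBase
  intro hp2
  refine eulerBig_of_red (H614.red_of H314.lemmaA) (fun S hpS => ?_) (fun S hpS => ?_) ?_ hp2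
  · exact H419.phiAdd_of p S H113.les0Spec H113.les1Spec H113.lesMidSpec
      H724.globalNormalCofinal (H593.finGlob p S)
      (fun N hN hsm => (hH2 p S hp2 hpS N hN hsm).1) (h4 p S hp2 hpS).1
  · exact fun N hN hsm => (hH2 p S hp2 hpS N hN hsm).1
  · refine H419.charEulerBig_of (fun S hp2' hpS => ?_) ?_ H419.clSpec' (hP1 p)
    · obtain ⟨a, b, c, d⟩ := h4 p S hp2' hpS
      exact H765.h2cp_of_four p S a b c d hp2' hpS
    · intro S₀ hpS₀ U hUn hU hχ
      refine H726.exists_sha2_indMu_eq_bot p S₀ (fun T hT => ?_) U hU hUn ?_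
      · obtain ⟨a, b, c, d⟩ := h4 p T hp2 (hT hpS₀)
        exact theoremD_of_four p T (hT hpS₀) a b c d
      · intro u hu
        apply LinearMap.ext
        intro x
        rw [ofChar_ρ_apply, hχ u hu]
        simp

/-- **BASE-BIG from the S55 inputs (route C′) and CE-H1.** -/
theorem baseBig_of_inputs
    (h4 : ∀ (p : ℕ) [Fact p.Prime] (S : Finset Nat.Primes), p ≠ 2 → pPrime p ∈ S →
      Surj2GlobSpec p S ∧ Surj2LocSpec p S ∧ InvSpec p S ∧ CapSpec p S)
    (h1 : ∀ (p : ℕ) [Fact p.Prime], CEH1Spec p) : H716.BaseBigStatement :=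
  baseBig_of_p1 h4 fun p _ => p1Char_of_ceH1 (h1 p)

end Fermat.Agent.S56.Euler

end
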