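import Fermat.Agent.S56.Euler.Big.Spec

/-!
# Row S56 / wall BASE — BASE-BIG: the `H²` term of CHAR-EULER, FROZEN statement (helper366)

* `H2CPSpec p S` (H2-CP, **equivariant tail of Poitou–Tate**): for a finite-dimensional smooth
  `N` with an equivariant endomorphism `T` and `Ш²_S(N) = 0`:

    `charpoly (T | H²_S(N)) · charpoly (Tᵛ | H⁰(G_ℚ, N′)) = ∏_{q ∈ S} charpoly (Tᵛ | H⁰(G_q, N′))`,

  `N′ = tdual p N`, `Tᵛ = T.dualMap` (`f ↦ f ∘ T`).
  Proof: `0 → H²(N) → ∏_q H²(G_q, N) → T³(N) → 0` is exact (`Ш² = 0`, definition of `T³`) and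
  commutes with `T_*`; `topPair` (local) and `topT3` (global) are bijective (S55 by-products
  `TopLocSpec`, `TopGlobSpec`) and NATURAL: `topPair (T_* x) f = topPair x (f ∘ T)`
  (`pushH2_comp`); `charHom χ N = H⁰(N′)` as submodules of `Dual N` (`PT.H0_dualTwist_eq`);
  a map and its transpose have the same characteristic polynomial; the characteristic polynomial
  is multiplicative in short exact sequences (`H614.charpoly_of_exact`).

For `N = Ind_U μ_p`, `T = R_σ` (`H419.indR`): `T.dualMap = H419.indRDual U μ σ⁻¹`, and the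
right-hand side / the second factor are computed by `H419.charpoly_H0_loc_tdual`,
`H419.charpoly_H0_glob_tdual` (a permutation and its inverse have the same `permCharpoly`).

Nothing unproved in this file.
-/

set_option autoImplicit false

open Polynomial

noncomputable section

namespace Fermat.Agent.S56.Euler

open Fermat.Agent.S56 Fermat.Agent.S55.PT ExtCitation Module groupCohomology

variable (p : ℕ) [Fact p.Prime] (S : Finset Nat.Primes)

/-- (H2-CP) **the equivariant `H²` formula.** -/
def H2CPSpec : Prop :=
  p ≠ 2 → pPrime p ∈ S →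
    ∀ (N : Rep.{0, 0, 0} (ZMod p) GQ) (T : N →ₗ[ZMod p] N) (hT : IsEquivariant T),
      (globalLevels S).IsUSmooth N → Sha2 (hrl S) N = ⊥ →
      ∀ (_ : Module.Finite (ZMod p) N) (_ : Module.Finite (ZMod p) ((globalLevels S).H2 N)),
        LinearMap.charpoly (pushH2 T hT (globalLevels S)) *
            LinearMap.charpoly (pushH0 (A := tdual p N) (B := tdual p N) T.dualMap
              (dualMap_equivariant (cycloChar p) T hT)) =
          ∏ q ∈ S, LinearMap.charpoly
            (pushH0 (A := Rep.res (rl q) (tdual p N)) (B := Rep.res (rl q) (tdual p N))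
              T.dualMap ((dualMap_equivariant (cycloChar p) T hT).res (rl q)))

end Fermat.Agent.S56.Euler

end
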