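import Fermat.Agent.S56.Euler.Big.Spec
import Fermat.Agent.S56.H614.RedSpec
import Fermat.Agent.S55.PT.Final

/-!
# Row S56 / wall BASE — BASE-BIG: E-BIG from RED (helper614) and CHAR-EULER-BIG (helper366)

    theorem eulerBig_of_red : H614.RedStatement → (∀ S ∋ p, PhiAddSpec p S) →
        (∀ S ∋ p, H2FinGlobSpec p S) → CharEulerBigSpec p → EulerBigSpec p          -- PROVED

* `CharEulerBigSpec p` (CHAR-EULER-BIG, THE arithmetic target): for every normal level `U` of
  `S₀ ∋ p` on which the cyclotomic character is trivial there is a finite `S ⊇ S₀` such that the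
  equivariant Euler–Poincaré identity `H614.CharpolyId` holds over `globalLevels S` for
  `X = Ind_U μ_p` and every right translation `R_σ = H419.indR U μ σ`, `σ` of order prime to `p`
  modulo `U`:   `charpoly (R_σ | H¹) = charpoly (R_σ | H⁰) · charpoly (R_σ | H²) · charpoly (R_σ | X^{c=−1})`.
-/

set_option autoImplicit false

open Polynomial

noncomputable section

namespace Fermat.Agent.S56.Euler

open Fermat.Agent.S56 Fermat.Agent.S55.PT ExtCitation Module groupCohomology

variable (p : ℕ) [Fact p.Prime]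

/-- (CHAR-EULER-BIG) **the equivariant Euler–Poincaré identity for `Ind_U μ_p`, for one big set
of primes.** -/
def CharEulerBigSpec : Prop :=
  p ≠ 2 → ∀ S₀ : Finset Nat.Primes, pPrime p ∈ S₀ →
    ∀ (U : Subgroup GQ) [U.Normal], U ∈ (globalLevels S₀).levels →
      (∀ u ∈ U, cycloChar p u = 1) →
      ∃ S : Finset Nat.Primes, S₀ ⊆ S ∧
        ∀ σ : GQ, ¬ p ∣ orderOf (σ : GQ ⧸ U) →
          H614.CharpolyId (globalLevels S) complexConjugation
            (indRep U (ofChar (cycloChar p))) (H419.indR U (ofChar (cycloChar p)) σ)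
            (H419.indR_equivariant U (ofChar (cycloChar p)) σ)

variable {p}

/-- A level of `S₀` is a level of every bigger set. -/
lemma mem_levels_mono {S₀ S : Finset Nat.Primes} (h : S₀ ⊆ S) {U : Subgroup GQ}
    (hU : U ∈ (globalLevels S₀).levels) : U ∈ (globalLevels S).levels := by
  obtain ⟨F, hF, rfl⟩ := hU
  exact ⟨F, hF.mono h, rfl⟩

/-- Below every level of `S₀ ∋ p` there is a normal level on which the cyclotomic character is
trivial. -/
lemma exists_normal_cyclo_level {S₀ : Finset Nat.Primes} (hpS₀ : pPrime p ∈ S₀)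
    {U : Subgroup GQ} (hU : U ∈ (globalLevels S₀).levels) :
    ∃ U' : Subgroup GQ, U' ≤ U ∧ U' ∈ (globalLevels S₀).levels ∧ U'.Normal ∧
      ∀ u ∈ U', cycloChar p u = 1 := by
  obtain ⟨V, hV, hVχ⟩ := cycloLevelSpec p S₀ hpS₀
  obtain ⟨W, hW, hWle⟩ := (globalLevels S₀).directed U hU V hV
  obtain ⟨U', hU', hU'W, hU'n⟩ := H724.globalNormalCofinal S₀ W hW
  exact ⟨U', fun u hu => (hWle (hU'W hu)).1, hU', hU'n,
    fun u hu => hVχ u (hWle (hU'W hu)).2⟩

/-- **E-BIG from RED and CHAR-EULER-BIG.** -/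
theorem eulerBig_of_red (hRed : H614.RedStatement)
    (hAdd : ∀ S : Finset Nat.Primes, pPrime p ∈ S → H419.PhiAddSpec p S)
    (hH2 : ∀ S : Finset Nat.Primes, pPrime p ∈ S → H419.H2FinGlobSpec p S)
    (hCE : CharEulerBigSpec p) : EulerBigSpec p := by
  intro hp2 S₀ hpS₀ U hU
  obtain ⟨U', hU'U, hU', hU'n, hχ⟩ := exists_normal_cyclo_level hpS₀ hU
  have : U'.Normal := hU'n
  obtain ⟨S, hS, hce⟩ := hCE hp2 S₀ hpS₀ U' hU' hχ
  have hpS : pPrime p ∈ S := hS hpS₀
  have hU'S : U' ∈ (globalLevels S).levels := mem_levels_mono hS hU'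
  have : U'.FiniteIndex := H724.globalFiniteIndex S U' hU'S
  refine ⟨S, hS, fun N hfd hUN => ?_⟩
  -- the induced module
  have hμtriv : ∀ u ∈ U', (ofChar (cycloChar p) : Rep.{0, 0, 0} (ZMod p) GQ).ρ u = 1 := by
    intro u hu
    apply LinearMap.ext
    intro x
    rw [ofChar_ρ_apply, hχ u hu]
    simp
  have hXtriv : ∀ u ∈ U', (indRep U' (ofChar (cycloChar p))).ρ u = 1 :=
    fun u hu => indRep_ρ_eq_one U' (ofChar (cycloChar p)) hμtriv u hu
  have hXsm : (globalLevels S).IsUSmooth (indRep U' (ofChar (cycloChar p))) :=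
    isUSmooth_of_trivial _ hU'S hXtriv
  have : Finite (GQ ⧸ U') := Subgroup.finite_quotient_of_finiteIndex
  have hXfd : FiniteDimensional (ZMod p) (indRep U' (ofChar (cycloChar p))) := by
    show Module.Finite (ZMod p) ((GQ ⧸ U') →₀ (ofChar (cycloChar p) : Rep.{0, 0, 0} (ZMod p) GQ))
    have : Module.Finite (ZMod p) (ofChar (cycloChar p) : Rep.{0, 0, 0} (ZMod p) GQ) := by
      show Module.Finite (ZMod p) (ZMod p)
      infer_instance
    infer_instance
  refine hRed p GQ (globalLevels S) complexConjugation U' (cycloChar p) hχ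
    (H593.finGlob p S _ hXfd hXsm) (hH2 S hpS _ hXfd hXsm) ?_ hce N hfd ?_
  · intro A B C E hB hBtriv
    exact hAdd S hpS hp2 complexConjugation complexConjugation_mul_self A B C E hB
      ⟨U', hU'S, hBtriv⟩
  · intro u hu n
    rw [hUN u (hU'U hu)]
    rfl

end Fermat.Agent.S56.Euler

end
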