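import Fermat.Agent.S56.Euler.Big.AsmSpec
import Fermat.Agent.S56.Euler.H726.Sha2
import Fermat.Agent.S56.H419.H0Herb

/-!
# Row S56 / wall BASE — BASE-BIG: CHAR-EULER-BIG from its leaves (helper366)

    theorem charEulerBig_of : (∀ T ∋ p, TheoremDSpec p T) → CEH1Spec p → CEH2Spec p → CLSpec p →
        CharEulerBigSpec p                                                           -- PROVED

For a normal level `U = G_F` of `S₀ ∋ p` with `χ|_U = 1`: enlarge `S₀` to `S₁` with `Ш²_T(X) = 0`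
for all `T ⊇ S₁` (`Euler.H726.exists_sha2_indMu_eq_bot`, needs Theorem D), then to `S ⊇ S₁` with
`H¹_S(Ind_U 𝔼)[p] = 0` (`CLSpec`).  Over `S`:

    charpoly (R_σ | H¹) · (T − 1) = (T − χσ) · P_∞ · P_S                    (CE-H1)
    charpoly (R_σ | H²) · (T − 1) = P_S                                     (CE-H2)
    charpoly (R_σ | H⁰) = T − χσ,   charpoly (R_σ | X^{c=−1}) = P_∞          (`H419/H0Final`)

and `T − 1` is a non-zero-divisor.
-/

set_option autoImplicit false
set_option linter.style.haveILetI false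

open Polynomial

noncomputable section

namespace Fermat.Agent.S56.Euler

open Fermat.Agent.S56 Fermat.Agent.S55.PT Fermat.Agent.S56.H419 Fermat.Agent.S56.H614
  Fermat.Agent.S55.G ExtCitation Module groupCohomology NumberField

attribute [local instance] Fermat.Agent.S55.Bridge.isAlgebraic_Qbar
  Fermat.Agent.S55.Bridge.isGalois_Qbar

variable {p : ℕ} [Fact p.Prime]

/-- The polynomial arithmetic of the assembly. -/
lemma charpolyId_arith {R : Type*} [CommRing R] [IsDomain R] {a b c d P Q T x : R} (hx : x ≠ 0)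
    (h1 : a * x = P * Q * T) (h2 : c * x = T) (h3 : b = P) (h4 : d = Q) : a = b * c * d := by
  apply mul_right_cancel₀ hx
  rw [h1, h3, h4, ← h2]
  ring

/-- **CHAR-EULER-BIG from CE-H1, CE-H2, CL and Theorem D.** -/
theorem charEulerBig_of (hD : ∀ T : Finset Nat.Primes, pPrime p ∈ T → TheoremDSpec p T)
    (h1 : CEH1Spec p) (h2 : CEH2Spec p) (hCL : CLSpec p) : CharEulerBigSpec p := by
  intro hp2 S₀ hpS₀ U hUn hU hχ
  have hμtriv : ∀ u ∈ U, (mu p : Rep.{0, 0, 0} (ZMod p) GQ).ρ u = 1 := by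
    intro u hu
    apply LinearMap.ext
    intro x
    rw [ofChar_ρ_apply, hχ u hu]
    simp
  obtain ⟨S₁, hS₁, hsha⟩ := H726.exists_sha2_indMu_eq_bot p S₀
    (fun T hT => hD T (hT hpS₀)) U hU hUn hμtriv
  obtain ⟨S, hS, hcl⟩ := hCL S₁ (hS₁ hpS₀) U hUn (mem_levels_mono hS₁ hU)
  have hpS : pPrime p ∈ S := hS (hS₁ hpS₀)
  refine ⟨S, hS₁.trans hS, fun σ _ => ?_⟩
  intro hX hH1 hH2
  have hsha2 : Sha2 (hrl S) (indRep U (mu p)) = ⊥ := hsha S hS
  obtain ⟨F, hF, rfl⟩ := mem_levels_mono (hS₁.trans hS) hU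
  haveI : FiniteDimensional ℚ F := hF.1
  haveI : NumberField F := ⟨⟩
  haveI : IsGalois ℚ F := (InfiniteGalois.normal_iff_isGalois F).1 hUn
  have e1 := h1 hp2 S hpS F hF hχ hcl σ hH1
  have e2 := h2 hp2 S hpS F hF hχ hsha2 σ hH2
  haveI : Module.Finite (ZMod p) (mu p) := inferInstanceAs (Module.Finite (ZMod p) (ZMod p))
  have hM1 : Module.finrank (ZMod p) (mu p) = 1 := Module.finrank_self (ZMod p)
  have e0 : LinearMap.charpoly (pushH0 (A := indRep F.fixingSubgroup (mu p))
      (B := indRep F.fixingSubgroup (mu p)) (indR F.fixingSubgroup (mu p) σ)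
      (indR_equivariant F.fixingSubgroup (mu p) σ)) =
      X - C ((cycloChar p σ : (ZMod p)ˣ) : ZMod p) := by
    rw [charpoly_H0_glob_char F.fixingSubgroup (mu p) (cycloChar p) (mu_ρ_apply p) σ,
      finrank_invU_of_trivial F.fixingSubgroup (mu p) (cycloChar p) (mu_ρ_apply p) hχ, hM1,
      pow_one]
  have einf : LinearMap.charpoly (minusMap (A := indRep F.fixingSubgroup (mu p))
      (B := indRep F.fixingSubgroup (mu p)) complexConjugation (indR F.fixingSubgroup (mu p) σ)
      (indR_equivariant F.fixingSubgroup (mu p) σ)) =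
      permCharpoly (ZMod p) (fun w : InfinitePlace F => (resF F σ)⁻¹ • w) :=
    charpoly_minus F (mu p) (mu_ρ_complexConjugation p) hM1 σ
  have hne : (X - 1 : (ZMod p)[X]) ≠ 0 := by
    have := X_sub_C_ne_zero (1 : ZMod p)
    rwa [map_one] at this
  exact charpolyId_arith hne e1 e2 e0 einf

end Fermat.Agent.S56.Euler

end
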