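import Fermat.Agent.S56.Euler.Big.Red
import Fermat.Agent.S56.Euler.Big.H2CPSpec
import Fermat.Agent.S56.Euler.H184.Kum
import Fermat.Agent.S56.H419.H0Final

/-!
# Row S56 / wall BASE — BASE-BIG: the arithmetic target CHAR-EULER-BIG, FROZEN leaves (helper366)

`CHAR-EULER-BIG  ⇐  CE-H1 + CE-H2 + CL + SHA`      (glue: `Euler/Big/AsmGlue.lean`)

`F/ℚ` a finite Galois level of `S` containing `μ_p`, `U = G_F = F.fixingSubgroup`,
`X = Ind_U μ_p = indRep U (mu p)`, `R_σ = H419.indR U (mu p) σ`, `τ = σ|_F = H419.resF F σ`,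
`P_∞(σ) = permCharpoly (τ⁻¹ on the infinite places of F)`,
`P_S(σ) = permCharpoly (primePerm ℚ F (primesT S) τ)` (the primes of `F` above `S`).

* `CEH1Spec p` (CE-H1 = KUM + HERB): if `H¹_S(Ind_U 𝔼)[p] = 0` (`H184.NoPTorsH1E`) then
    `charpoly (R_σ | H¹_S X) · (T − 1) = (T − χ(σ)) · P_∞(σ) · P_S(σ)`.
  [`H184.kumEq`: `H¹_S X` is a model of `E_S(F)/p`; `Euler.H896.herbCharpoly` for `K = ℚ`, `L = F`,
  `T = primesT S`; the model of `μ_p(F)` has characteristic polynomial `T − χ(σ)`.]
* `CEH2Spec p` (CE-H2 = H2-CP + H0): if `Ш²_S(X) = 0` then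
    `charpoly (R_σ | H²_S X) · (T − 1) = P_S(σ)`.
  [`H2CPSpec` for `(X, R_σ)`; `R_σ.dualMap = H419.indRDual U μ σ⁻¹`;
  `H419.charpoly_H0_loc_tdual`, `H419.charpoly_H0_glob_tdual` at `σ⁻¹`; a permutation and its
  inverse have the same `permCharpoly`.]
* `CLSpec p` (CL): every normal level `U` of `S₁ ∋ p` has a finite `S ⊇ S₁` with
  `H¹_S(Ind_U 𝔼)[p] = 0`  (kill `Cl(F)` by finitely many primes; Hilbert 90 at finite level).
* SHA is `Euler.H726.exists_sha2_indMu_eq_bot` (on main).

Nothing unproved in this file.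
-/

set_option autoImplicit false

open Polynomial

noncomputable section

namespace Fermat.Agent.S56.Euler

open Fermat.Agent.S56 Fermat.Agent.S55.PT Fermat.Agent.S56.H419 Fermat.Agent.S56.H614
  Fermat.Agent.S55.G ExtCitation Module groupCohomology NumberField

variable (p : ℕ) [Fact p.Prime]

/-- (CE-H1) **the `H¹` term**: Kummer theory + the `S`-unit theorem. -/
def CEH1Spec : Prop :=
  p ≠ 2 → ∀ S : Finset Nat.Primes, pPrime p ∈ S →
    ∀ (F : IntermediateField ℚ (AlgebraicClosure ℚ)) [NumberField F] [IsGalois ℚ F]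
      [FiniteDimensional ℚ F],
      F.IsUnramifiedOutside S → (∀ u ∈ F.fixingSubgroup, cycloChar p u = 1) →
      H184.NoPTorsH1E p S F.fixingSubgroup →
      ∀ (σ : GQ)
        (_ : Module.Finite (ZMod p) ((globalLevels S).H1 (indRep F.fixingSubgroup (mu p)))),
        LinearMap.charpoly (pushH1 (A := indRep F.fixingSubgroup (mu p))
            (B := indRep F.fixingSubgroup (mu p)) (indR F.fixingSubgroup (mu p) σ)
            (indR_equivariant F.fixingSubgroup (mu p) σ) (globalLevels S)) * (X - 1) =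
          (X - C ((cycloChar p σ : (ZMod p)ˣ) : ZMod p)) *
            permCharpoly (ZMod p) (fun w : InfinitePlace F => (resF F σ)⁻¹ • w) *
            permCharpoly (ZMod p) (primePerm ℚ F (primesT S) (resF F σ))

/-- (CE-H2) **the `H²` term**: the equivariant tail of Poitou–Tate + the local `H⁰` package. -/
def CEH2Spec : Prop :=
  p ≠ 2 → ∀ S : Finset Nat.Primes, pPrime p ∈ S →
    ∀ (F : IntermediateField ℚ (AlgebraicClosure ℚ)) [NumberField F] [IsGalois ℚ F]
      [FiniteDimensional ℚ F],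
      F.IsUnramifiedOutside S → (∀ u ∈ F.fixingSubgroup, cycloChar p u = 1) →
      Sha2 (hrl S) (indRep F.fixingSubgroup (mu p)) = ⊥ →
      ∀ (σ : GQ)
        (_ : Module.Finite (ZMod p) ((globalLevels S).H2 (indRep F.fixingSubgroup (mu p)))),
        LinearMap.charpoly (pushH2 (A := indRep F.fixingSubgroup (mu p))
            (B := indRep F.fixingSubgroup (mu p)) (indR F.fixingSubgroup (mu p) σ)
            (indR_equivariant F.fixingSubgroup (mu p) σ) (globalLevels S)) * (X - 1) =
          permCharpoly (ZMod p) (primePerm ℚ F (primesT S) (resF F σ))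

/-- (CL) **killing the class group**: for every normal level `U` of `S₁ ∋ p` there is a finite
`S ⊇ S₁` with `H¹_S(Ind_U 𝔼)[p] = 0`. -/
def CLSpec : Prop :=
  ∀ S₁ : Finset Nat.Primes, pPrime p ∈ S₁ →
    ∀ U : Subgroup GQ, U.Normal → U ∈ (globalLevels S₁).levels →
      ∃ S : Finset Nat.Primes, S₁ ⊆ S ∧ H184.NoPTorsH1E p S U

end Fermat.Agent.S56.Euler

end
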