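import Fermat.Agent.S56.Euler.Big.Spec
import Fermat.Agent.S56.H314.AvlDefs
import Fermat.Agent.S55.PT.LevelsH724
import Fermat.Agent.S55.PT.CycloLevelH723

/-!
# Row S56 / wall BASE — BASE-BIG, leaf EB (helper415, subtask 662)

    theorem eulerBig_of (p) [Fact p.Prime] (hAVL : H314.AVLStatement)
        (hAdd : ∀ S, pPrime p ∈ S → H419.PhiAddSpec p S) (hC : BaseCSpec p) : EulerBigSpec p

Formal glue: shrink the level `U` to a normal level `U'` acting trivially on `μ_p`; `G := G_ℚ ⧸ U'`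
is finite; `Φ(M̄) := φ_S(Res_π M̄)` (`π : G_ℚ → G`) is additive (`hAdd`) and vanishes on the modules
`k[G/C] ⊗ M̄`, `C` cyclic of order prime to `p` (`hC` + the isomorphism
`Res_π (k[G/C] ⊗ M̄) ≅ Ind_{π⁻¹ C} (Res_π M̄)` + invariance of `φ_S` under isomorphisms, which
follows from additivity); the additive vanishing lemma `hAVL` gives `Φ = 0`.
-/

set_option autoImplicit false

noncomputable section

namespace Fermat.Agent.S56.Euler.H415

open Fermat.Agent.S56 Fermat.Agent.S55.PT ExtCitation Module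

variable (p : ℕ) [Fact p.Prime]

/-! ## Levels -/

/-- A level of `S₀` is a level of every bigger set. -/
lemma mem_levels_mono {S₀ S : Finset Nat.Primes} (h : S₀ ⊆ S) {U : Subgroup GQ}
    (hU : U ∈ (globalLevels S₀).levels) : U ∈ (globalLevels S).levels := by
  obtain ⟨F, hF, rfl⟩ := hU
  exact ⟨F, hF.mono h, rfl⟩

/-- Below every level of `S₀ ∋ p` there is a normal level on which the cyclotomic character is
trivial. -/
lemma exists_normal_cyclo_level (S₀ : Finset Nat.Primes) (hpS₀ : pPrime p ∈ S₀)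
    (U : Subgroup GQ) (hU : U ∈ (globalLevels S₀).levels) :
    ∃ U' ∈ (globalLevels S₀).levels, U' ≤ U ∧ U'.Normal ∧ ∀ u ∈ U', cycloChar p u = 1 := by
  obtain ⟨V, hV, hVc⟩ := H723.cycloLevelSpec p S₀ hpS₀
  obtain ⟨W, hW, hWle⟩ := (globalLevels S₀).directed U hU V hV
  obtain ⟨U', hU', hle, hn⟩ := H724.globalNormalCofinal S₀ W hW
  exact ⟨U', hU', hle.trans (hWle.trans inf_le_left), hn,
    fun u hu => hVc u ((hWle.trans inf_le_right) (hle hu))⟩

/-! ## Invariance of an additive function under isomorphisms -/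

section Iso

variable {p} {S : Finset Nat.Primes}

/-- The zero representation. -/
def zeroRep : Rep.{0, 0, 0} (ZMod p) GQ := Rep.of (X := PUnit) (1 : Representation (ZMod p) GQ PUnit)

lemma isUSmooth_zeroRep : (globalLevels S).IsUSmooth (zeroRep (p := p)) := by
  obtain ⟨U, hU⟩ := (globalLevels S).nonempty
  exact ⟨U, hU, fun _ _ _ => rfl⟩

/-- The short exact sequence `0 → A → B → 0 → 0` of an equivariant isomorphism. -/
def sesOfEquiv {A B : Rep.{0, 0, 0} (ZMod p) GQ} (e : A ≃ₗ[ZMod p] B)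
    (he : ∀ (g : GQ) (a : A), e (A.ρ g a) = B.ρ g (e a)) : SES A B (zeroRep (p := p)) where
  i := e.toLinearMap
  π := 0
  hi := he
  hπ := fun _ _ => rfl
  inj := e.injective
  surj := fun _ => ⟨0, rfl⟩
  exact := by
    rw [LinearMap.ker_zero]
    exact LinearMap.range_eq_top.2 e.surjective

/-- The short exact sequence `0 → 0 → 0 → 0 → 0`. -/
def sesZero : SES (zeroRep (p := p)) (zeroRep (p := p)) (zeroRep (p := p)) where
  i := 0
  π := 0
  hi := fun _ _ => rfl
  hπ := fun _ _ => rfl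
  inj := fun _ _ _ => rfl
  surj := fun _ => ⟨0, rfl⟩
  exact := by
    rw [LinearMap.ker_zero, LinearMap.range_eq_top]
    exact fun _ => ⟨0, rfl⟩

variable (hp2 : p ≠ 2) (hAdd : H419.PhiAddSpec p S)

include hp2 hAdd in
lemma phi_zeroRep : H419.phi (globalLevels S) complexConjugation (zeroRep (p := p)) = 0 := by
  have h := hAdd hp2 complexConjugation complexConjugation_mul_self _ _ _ (sesZero (p := p))
    (inferInstanceAs (FiniteDimensional (ZMod p) PUnit)) isUSmooth_zeroRep
  linarith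

include hp2 hAdd in
/-- `φ_S` is invariant under equivariant isomorphisms. -/
lemma phi_congr {A B : Rep.{0, 0, 0} (ZMod p) GQ} (e : A ≃ₗ[ZMod p] B)
    (he : ∀ (g : GQ) (a : A), e (A.ρ g a) = B.ρ g (e a))
    (hfB : FiniteDimensional (ZMod p) B) (hB : (globalLevels S).IsUSmooth B) :
    H419.phi (globalLevels S) complexConjugation B =
      H419.phi (globalLevels S) complexConjugation A := by
  have h := hAdd hp2 complexConjugation complexConjugation_mul_self _ _ _ (sesOfEquiv e he) hfB hB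
  rw [h, phi_zeroRep hp2 hAdd, add_zero]

end Iso

/-! ## The quotient `G = G_ℚ ⧸ U'` -/

section Quot

variable {p} (U' : Subgroup GQ) [U'.Normal]

/-- The map of coset spaces `G_ℚ ⧸ π⁻¹ C → (G_ℚ ⧸ U') ⧸ C`. -/
def cosetMap (C : Subgroup (GQ ⧸ U')) :
    GQ ⧸ (C.comap (QuotientGroup.mk' U')) → (GQ ⧸ U') ⧸ C :=
  Quotient.map' (fun g : GQ => (QuotientGroup.mk' U' g : GQ ⧸ U')) (fun a b hab => by
    rw [QuotientGroup.leftRel_apply] at hab ⊢
    have h1 : QuotientGroup.mk' U' (a⁻¹ * b) ∈ C := hab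
    rwa [map_mul, map_inv] at h1)

lemma cosetMap_mk (C : Subgroup (GQ ⧸ U')) (g : GQ) :
    cosetMap U' C (QuotientGroup.mk g) =
      (QuotientGroup.mk (QuotientGroup.mk' U' g : GQ ⧸ U') : (GQ ⧸ U') ⧸ C) := rfl

lemma cosetMap_bijective (C : Subgroup (GQ ⧸ U')) : Function.Bijective (cosetMap U' C) := by
  constructor
  · intro x y
    induction x using QuotientGroup.induction_on with
    | H a =>
      induction y using QuotientGroup.induction_on with
      | H b =>
        intro h
        rw [cosetMap_mk, cosetMap_mk, QuotientGroup.eq] at h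
        rw [QuotientGroup.eq]
        show QuotientGroup.mk' U' (a⁻¹ * b) ∈ C
        rwa [map_mul, map_inv]
  · intro y
    induction y using QuotientGroup.induction_on with
    | H c =>
      obtain ⟨g, rfl⟩ := QuotientGroup.mk'_surjective U' c
      exact ⟨QuotientGroup.mk g, rfl⟩

lemma cosetMap_smul (C : Subgroup (GQ ⧸ U')) (g : GQ)
    (x : GQ ⧸ (C.comap (QuotientGroup.mk' U'))) :
    cosetMap U' C (g • x) = (QuotientGroup.mk' U' g : GQ ⧸ U') • cosetMap U' C x := by
  induction x using QuotientGroup.induction_on with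
  | H a =>
    show cosetMap U' C (QuotientGroup.mk (g * a)) = _
    rw [cosetMap_mk, cosetMap_mk, map_mul]
    rfl

/-- The bijection of coset spaces `G_ℚ ⧸ π⁻¹ C ≃ (G_ℚ ⧸ U') ⧸ C`. -/
def cosetEquiv (C : Subgroup (GQ ⧸ U')) :
    GQ ⧸ (C.comap (QuotientGroup.mk' U')) ≃ (GQ ⧸ U') ⧸ C :=
  Equiv.ofBijective (cosetMap U' C) (cosetMap_bijective U' C)

/-- `Ind_{π⁻¹ C} (Res_π M̄) ≃ Res_π (k[G/C] ⊗ M̄)`. -/
def indResEquiv (C : Subgroup (GQ ⧸ U')) (M : Rep.{0, 0, 0} (ZMod p) (GQ ⧸ U')) :
    (indRep (C.comap (QuotientGroup.mk' U')) (Rep.res (QuotientGroup.mk' U') M)) ≃ₗ[ZMod p]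
      (Rep.res (QuotientGroup.mk' U') (H314.avlIndRep C M)) :=
  Finsupp.domLCongr (cosetEquiv U' C)

lemma indResEquiv_single (C : Subgroup (GQ ⧸ U')) (M : Rep.{0, 0, 0} (ZMod p) (GQ ⧸ U'))
    (x : GQ ⧸ (C.comap (QuotientGroup.mk' U'))) (m : M) :
    indResEquiv U' C M (Finsupp.single x m) = Finsupp.single (cosetMap U' C x) m := by
  show Finsupp.domLCongr (cosetEquiv U' C) (Finsupp.single x m) = _
  rw [Finsupp.domLCongr_single]
  rfl

lemma indResEquiv_equivariant (C : Subgroup (GQ ⧸ U'))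
    (M : Rep.{0, 0, 0} (ZMod p) (GQ ⧸ U')) (g : GQ)
    (a : indRep (C.comap (QuotientGroup.mk' U')) (Rep.res (QuotientGroup.mk' U') M)) :
    indResEquiv U' C M
        ((indRep (C.comap (QuotientGroup.mk' U')) (Rep.res (QuotientGroup.mk' U') M)).ρ g a) =
      (Rep.res (QuotientGroup.mk' U') (H314.avlIndRep C M)).ρ g (indResEquiv U' C M a) := by
  have key : (indResEquiv U' C M).toLinearMap ∘ₗ
      (indAct (C.comap (QuotientGroup.mk' U')) (Rep.res (QuotientGroup.mk' U') M) g) =
      (H314.avlIndAct C M (QuotientGroup.mk' U' g)) ∘ₗ (indResEquiv U' C M).toLinearMap := by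
    apply Finsupp.lhom_ext
    intro x m
    rw [LinearMap.comp_apply, LinearMap.comp_apply, indAct_single]
    show indResEquiv U' C M (Finsupp.single (g • x) _) =
      H314.avlIndAct C M (QuotientGroup.mk' U' g) (indResEquiv U' C M (Finsupp.single x m))
    rw [indResEquiv_single, indResEquiv_single, cosetMap_smul]
    exact (H314.avlIndAct_single C M (QuotientGroup.mk' U' g) (cosetMap U' C x) m).symm
  exact LinearMap.congr_fun key a

end Quot

/-! ## The leaf -/

section Main

variable {p}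

/-- The descent to `G_ℚ ⧸ U'` of a representation on which `U'` acts trivially. -/
def descRep (U' : Subgroup GQ) [U'.Normal] (N : Rep.{0, 0, 0} (ZMod p) GQ)
    (hN : ∀ u ∈ U', N.ρ u = 1) : Rep.{0, 0, 0} (ZMod p) (GQ ⧸ U') :=
  Rep.of (X := N.V) (QuotientGroup.lift U' N.ρ (fun u hu => MonoidHom.mem_ker.2 (hN u hu)))

lemma res_descRep_ρ (U' : Subgroup GQ) [U'.Normal] (N : Rep.{0, 0, 0} (ZMod p) GQ)
    (hN : ∀ u ∈ U', N.ρ u = 1) (g : GQ) (a : N.V) :
    (Rep.res (QuotientGroup.mk' U') (descRep U' N hN)).ρ g a = N.ρ g a := rfl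

lemma isUSmooth_res (S : Finset Nat.Primes) (U' : Subgroup GQ) [U'.Normal]
    (hU' : U' ∈ (globalLevels S).levels) (M : Rep.{0, 0, 0} (ZMod p) (GQ ⧸ U')) :
    (globalLevels S).IsUSmooth (Rep.res (QuotientGroup.mk' U') M) := by
  refine ⟨U', hU', fun s hs a => ?_⟩
  show M.ρ (QuotientGroup.mk' U' s) a = a
  have h1 : (QuotientGroup.mk' U' s : GQ ⧸ U') = 1 := (QuotientGroup.eq_one_iff s).2 hs
  rw [h1, map_one]
  rfl

end Main

/-- **Leaf EB**: Tate's global Euler characteristic formula for one big set, from the additive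
vanishing lemma, additivity of `φ`, and the cyclic case. -/
theorem eulerBig_of (p : ℕ) [Fact p.Prime] (hAVL : H314.AVLStatement)
    (hAdd : ∀ S, pPrime p ∈ S → H419.PhiAddSpec p S) (hC : BaseCSpec p) : EulerBigSpec p := by
  intro hp2 S₀ hpS₀ U hU
  obtain ⟨U', hU', hle, hn, hcyc⟩ := H415.exists_normal_cyclo_level p S₀ hpS₀ U hU
  have := hn
  obtain ⟨S, hS, hphi⟩ := hC hp2 S₀ hpS₀ U' hU' hcyc
  refine ⟨S, hS, fun N hfN hUN => ?_⟩
  have hpS : pPrime p ∈ S := hS hpS₀
  have hU'S : U' ∈ (globalLevels S).levels := H415.mem_levels_mono hS hU'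
  have : U'.FiniteIndex := H724.globalFiniteIndex S₀ U' hU'
  have : Finite (GQ ⧸ U') := Subgroup.finite_quotient_of_finiteIndex
  have hAddS := hAdd S hpS
  -- the additive function on representations of the finite quotient
  have hΦadd : H314.IsAdditiveFun (fun M : Rep.{0, 0, 0} (ZMod p) (GQ ⧸ U') =>
      H419.phi (globalLevels S) complexConjugation (Rep.res (QuotientGroup.mk' U') M)) := by
    intro A B C i π _ hfB _ hi hπ hinj hsurj hex
    exact hAddS hp2 complexConjugation complexConjugation_mul_self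
      (Rep.res (QuotientGroup.mk' U') A) (Rep.res (QuotientGroup.mk' U') B)
      (Rep.res (QuotientGroup.mk' U') C)
      { i := i
        π := π
        hi := fun g a => hi (QuotientGroup.mk' U' g) a
        hπ := fun g b => hπ (QuotientGroup.mk' U' g) b
        inj := hinj
        surj := hsurj
        exact := hex }
      hfB (H415.isUSmooth_res S U' hU'S B)
  have hΦcyc : ∀ C : Subgroup (GQ ⧸ U'), IsCyclic C → ¬ p ∣ Nat.card C →
      ∀ M : Rep.{0, 0, 0} (ZMod p) (GQ ⧸ U'), FiniteDimensional (ZMod p) M →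
        H419.phi (globalLevels S) complexConjugation
          (Rep.res (QuotientGroup.mk' U') (H314.avlIndRep C M)) = 0 := by
    intro C hC1 hC2 M hfM
    have h0 := hphi C hC1 hC2 (Rep.res (QuotientGroup.mk' U') M) hfM (fun u hu => by
      show M.ρ (QuotientGroup.mk' U' u) = 1
      have h1 : (QuotientGroup.mk' U' u : GQ ⧸ U') = 1 := (QuotientGroup.eq_one_iff u).2 hu
      rw [h1, map_one])
    have hfd : FiniteDimensional (ZMod p)
        (Rep.res (QuotientGroup.mk' U') (H314.avlIndRep C M)) :=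
      inferInstanceAs (FiniteDimensional (ZMod p) (((GQ ⧸ U') ⧸ C) →₀ M))
    have h1 := H415.phi_congr hp2 hAddS (H415.indResEquiv U' C M)
      (H415.indResEquiv_equivariant U' C M) hfd (H415.isUSmooth_res S U' hU'S _)
    rw [h1]
    exact h0
  have hN' : ∀ u ∈ U', N.ρ u = 1 := fun u hu => hUN u (hle hu)
  have hmain := hAVL p (ZMod p) (GQ ⧸ U') _ hΦadd hΦcyc (H415.descRep U' N hN') hfN
  have hsmN : (globalLevels S).IsUSmooth N :=
    ⟨U', hU'S, fun s hs a => by rw [hN' s hs]; rfl⟩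
  have h2 := H415.phi_congr hp2 hAddS
    (A := Rep.res (QuotientGroup.mk' U') (H415.descRep U' N hN')) (B := N)
    (LinearEquiv.refl (ZMod p) N.V) (fun g a => rfl) hfN hsmN
  rw [h2]
  exact hmain

end Fermat.Agent.S56.Euler.H415

end
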