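import Fermat.Agent.S56.Euler.Big.H2FH29
import Fermat.Agent.S55.PT.ConverseH595

/-!
# Row S56 / BASE-BIG — leaf H2F without input A8   (helper595)

`h2Formula_of_s55 : S55Frozen → Surj2Glob → Surj2Loc → Inv → H2FormulaSpec p S`:
the `H²` formula from the FROZEN STATEMENT of S55 (type of `Fermat.Agent.S55.result`) and the
inputs A3, A4, A5–A7 — input A8 (`CapSpec`) is NOT needed: Theorem D comes from
`S55.PT.H595.theoremD_of_frozen` (converse bridge).

Also `theoremD_all_of_s55` : Theorem D for all `T ⊇ S`, the hypothesis of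
`Euler.H726.exists_sha2_ind_eq_bot`.
-/

set_option autoImplicit false

noncomputable section

namespace Fermat.Agent.S56.Euler.H595

open Fermat.Agent.S56 Fermat.Agent.S55.PT ExtCitation Module

variable (p : ℕ) [Fact p.Prime] (S : Finset Nat.Primes)

/-- **Leaf H2F from S55 + A3 + A4 + A5–A7** (no A8). -/
theorem h2Formula_of_s55 (hS55 : Fermat.Agent.S55.PT.H595.S55Frozen)
    (hSurjG : Surj2GlobSpec p S) (hSurjL : Surj2LocSpec p S) (hInv : InvSpec p S) :
    H2FormulaSpec p S := by
  intro hp2 hpS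
  have hD : TheoremDSpec p S := Fermat.Agent.S55.PT.H595.theoremD_of_frozen p S hS55 hp2 hpS
  obtain ⟨inv, hrec, hTLI, hTGI⟩ := hInv
  have hrec' : IsRecip (hrl S) (cycloChar p) inv := hrec
  have hTopL : TopLocSpec inv :=
    H299.topLocDev p S H113.lesMidSpec H724.localNormalCofinal H724.localFiniteIndex inv hTLI
      hSurjL
  have hTopG : TopGlobSpec inv hrec' :=
    H123.topGlobDev p S H113.lesMidSpec H724.globalNormalCofinal H724.localNormalCofinal
      H724.globalFiniteIndex hpS inv hrec' hTopL hTGI hSurjG hSurjL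
  exact H29.h2Formula_of p S (H593.finGlob p S) hD inv hrec' hTopL hTopG hp2 hpS

/-- Theorem D for all sets `T ⊇ S` (`p ∈ S`), from the frozen statement of S55. -/
theorem theoremD_all_of_s55 (hS55 : Fermat.Agent.S55.PT.H595.S55Frozen) (hp2 : p ≠ 2)
    (hpS : pPrime p ∈ S) : ∀ T : Finset Nat.Primes, S ⊆ T → TheoremDSpec p T :=
  fun T hT => Fermat.Agent.S55.PT.H595.theoremD_of_frozen p T hS55 hp2 (hT hpS)

end Fermat.Agent.S56.Euler.H595

end
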